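import Fermat.Agent.S55.T.Spec3

/-!
# S55, layer T, leaf T9 (helper415): additivity of `Hⁿ(G, -)`, finite products

* `coeffMap_add`, `coeffMap_zero`, `coeffMap_sum`, `coeffMap_comp`, `coeffMap_id`;
* `finiteProd : FiniteProdSpec`.
-/

set_option autoImplicit false

open CategoryTheory groupCohomology

namespace Fermat.Agent.S55.T.H415

open Fermat.Agent.S55.T

variable {k G : Type} [CommRing k] [Group G]

lemma coeffMap_add {A B : Rep.{0} k G} (f g : A ⟶ B) (n : ℕ) :
    coeffMap (f + g) n = coeffMap f n + coeffMap g n := by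
  have h : cochainsMap (MonoidHom.id G) (f + g) =
      cochainsMap (MonoidHom.id G) f + cochainsMap (MonoidHom.id G) g :=
    (cochainsFunctor k G).map_add
  change HomologicalComplex.homologyMap (cochainsMap (MonoidHom.id G) (f + g)) n = _
  rw [h, HomologicalComplex.homologyMap_add]
  rfl

lemma coeffMap_zero (A B : Rep.{0} k G) (n : ℕ) :
    coeffMap (0 : A ⟶ B) n = 0 :=
  (groupCohomology.functor k G n).map_zero A B

lemma coeffMap_id (A : Rep.{0} k G) (n : ℕ) : coeffMap (𝟙 A) n = 𝟙 _ :=
  HomologicalComplex.homologyMap_id _ _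

lemma coeffMap_comp {A B C : Rep.{0} k G} (f : A ⟶ B) (g : B ⟶ C) (n : ℕ) :
    coeffMap (f ≫ g) n = coeffMap f n ≫ coeffMap g n :=
  groupCohomology.map_id_comp f g n

lemma coeffMap_sum {A B : Rep.{0} k G} {ι : Type} (s : Finset ι) (f : ι → (A ⟶ B)) (n : ℕ) :
    coeffMap (∑ i ∈ s, f i) n = ∑ i ∈ s, coeffMap (f i) n := by
  classical
  induction s using Finset.induction_on with
  | empty => simp [coeffMap_zero]
  | insert a s ha ih => rw [Finset.sum_insert ha, Finset.sum_insert ha, coeffMap_add, ih]

lemma coeffMap_comp_apply {A B C : Rep.{0} k G} (f : A ⟶ B) (g : B ⟶ C) (n : ℕ)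
    (x : groupCohomology A n) :
    (coeffMap (f ≫ g) n).hom x = (coeffMap g n).hom ((coeffMap f n).hom x) := by
  rw [coeffMap_comp]; rfl

lemma coeffMap_sum_apply {A B : Rep.{0} k G} {ι : Type} (s : Finset ι) (f : ι → (A ⟶ B)) (n : ℕ)
    (x : groupCohomology A n) :
    (coeffMap (∑ i ∈ s, f i) n).hom x = ∑ i ∈ s, (coeffMap (f i) n).hom x := by
  rw [coeffMap_sum]
  simp

/-- **T9a.** Finite products. -/
theorem finiteProd : FiniteProdSpec := by
  intro k G _ _ ι _ A C p hbij n
  classical
  have : Fintype ι := Fintype.ofFinite ι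
  -- the linear equivalence `C ≃ ∏ A i`
  let P : C.V →ₗ[k] (∀ i, (A i).V) := LinearMap.pi fun i => (p i).hom.toLinearMap
  have hP : Function.Bijective P := hbij
  let e : C.V ≃ₗ[k] (∀ i, (A i).V) := LinearEquiv.ofBijective P hP
  have he : ∀ c i, e c i = (p i).hom c := fun _ _ => rfl
  -- the inclusions
  let jlin : ∀ i, (A i).V →ₗ[k] C.V := fun i =>
    e.symm.toLinearMap ∘ₗ LinearMap.single k (fun i => (A i).V) i
  have hpj : ∀ i i' (a : (A i).V),
      (p i').hom (jlin i a) = (Pi.single i a : ∀ i, (A i).V) i' := by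
    intro i i' a
    rw [← he]
    simp [jlin]
  have hj_equiv : ∀ i (g : G) (a : (A i).V), jlin i ((A i).ρ g a) = C.ρ g (jlin i a) := by
    intro i g a
    apply e.injective
    funext i'
    rw [he, he, hpj, Rep.hom_comm_apply, hpj]
    by_cases h : i' = i
    · subst h; simp
    · simp [Pi.single_eq_of_ne h]
  let j : ∀ i, A i ⟶ C := fun i =>
    ConcreteCategory.ofHom (C := Rep.{0} k G)
      ({ toLinearMap := jlin i
         isIntertwining' := fun g => LinearMap.ext fun a => hj_equiv i g a } :
        (A i).ρ.IntertwiningMap C.ρ)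
  have hj_apply : ∀ i (a : (A i).V), (j i).hom a = jlin i a := fun _ _ => rfl
  have hjp_same : ∀ i, j i ≫ p i = 𝟙 (A i) := by
    intro i
    apply Rep.hom_ext
    apply DFunLike.ext
    intro a
    change (p i).hom ((j i).hom a) = a
    rw [hj_apply, hpj]; simp
  have hjp_ne : ∀ i i', i ≠ i' → j i ≫ p i' = 0 := by
    intro i i' h
    apply Rep.hom_ext
    apply DFunLike.ext
    intro a
    change (p i').hom ((j i).hom a) = 0
    rw [hj_apply, hpj]; simp [Pi.single_eq_of_ne (Ne.symm h)]
  have hsum : ∑ i, p i ≫ j i = 𝟙 C := by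
    apply Rep.hom_ext
    apply DFunLike.ext
    intro c
    change ((∑ i, p i ≫ j i : C ⟶ C)).hom c = c
    have h1 : ((∑ i, p i ≫ j i : C ⟶ C)).hom c = ∑ i, (j i).hom ((p i).hom c) := by
      rw [Rep.sum_hom, Representation.IntertwiningMap.sum_apply]
      rfl
    rw [h1]
    apply e.injective
    funext i'
    rw [he, map_sum]
    simp only [hj_apply, hpj]
    rw [Finset.sum_eq_single i']
    · simp [he]
    · intro b _ hb; simp [Pi.single_eq_of_ne (Ne.symm hb)]
    · intro h; exact absurd (Finset.mem_univ _) h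
  constructor
  · -- injective
    intro x y hxy
    have hx : ∀ i, (coeffMap (p i) n).hom x = (coeffMap (p i) n).hom y := fun i => congrFun hxy i
    have key : ∀ z : groupCohomology C n,
        z = ∑ i, (coeffMap (j i) n).hom ((coeffMap (p i) n).hom z) := by
      intro z
      have := coeffMap_sum_apply Finset.univ (fun i => p i ≫ j i) n z
      rw [hsum, coeffMap_id] at this
      simp only [coeffMap_comp_apply] at this
      exact this
    rw [key x, key y]
    exact Finset.sum_congr rfl fun i _ => by rw [hx i]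
  · -- surjective
    intro y
    refine ⟨∑ i, (coeffMap (j i) n).hom (y i), ?_⟩
    funext i'
    simp only [map_sum]
    rw [Finset.sum_eq_single i']
    · rw [← coeffMap_comp_apply, hjp_same, coeffMap_id]; rfl
    · intro b _ hb
      rw [← coeffMap_comp_apply, hjp_ne b i' hb, coeffMap_zero]; rfl
    · intro h; exact absurd (Finset.mem_univ _) h

end Fermat.Agent.S55.T.H415
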