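import Fermat.Agent.S55.T.H415.Additive

/-!
# S55, layer T, leaf T9b (helper415): `Hⁿ(G, -)` commutes with arbitrary direct sums (`G` finite)

`directSum : DirectSumSpec`.
-/

set_option autoImplicit false

open CategoryTheory groupCohomology

namespace Fermat.Agent.S55.T.H415

open Fermat.Agent.S55.T

variable {k G : Type} [CommRing k] [Group G]

/-- If an endomorphism `φ` of `C` fixes all values of a cocycle `z`, then it fixes its class. -/
lemma coeffMap_π_eq_of_fix {C : Rep.{0} k G} (φ : C ⟶ C) (n : ℕ) (z : cocycles C n)
    (h : ∀ v : Fin n → G, φ.hom ((iCocycles C n).hom z v) = (iCocycles C n).hom z v) :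
    (coeffMap φ n).hom ((groupCohomology.π C n).hom z) = (groupCohomology.π C n).hom z := by
  have h1 : (coeffMap φ n).hom ((groupCohomology.π C n).hom z) =
      (groupCohomology.π C n).hom ((cocyclesMap (MonoidHom.id G) φ n).hom z) := by
    have := groupCohomology.π_map (MonoidHom.id G) φ n
    exact congrArg (fun f => f.hom z) this
  rw [h1]
  congr 1
  have hinj : Function.Injective (iCocycles C n).hom :=
    (ModuleCat.mono_iff_injective _).1 inferInstance
  apply hinj
  have h2 : (iCocycles C n).hom ((cocyclesMap (MonoidHom.id G) φ n).hom z) =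
      ((cochainsMap (MonoidHom.id G) φ).f n).hom ((iCocycles C n).hom z) := by
    have := HomologicalComplex.cyclesMap_i (cochainsMap (MonoidHom.id G) φ) n
    exact congrArg (fun f => f.hom z) this
  rw [h2, cochainsMap_id_f_hom_eq_compLeft]
  funext v
  exact h v

/-- **T9b.** Direct sums over a finite group. -/
theorem directSum : DirectSumSpec := by
  intro k G _ _ _ ι _ A C inc hbij n
  classical
  haveI : Fintype G := Fintype.ofFinite G
  let D : (DirectSum ι fun i => (A i).V) →ₗ[k] C.V :=
    DirectSum.toModule k ι C.V (fun i => (inc i).hom.toLinearMap)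
  let E : (DirectSum ι fun i => (A i).V) ≃ₗ[k] C.V := LinearEquiv.ofBijective D hbij
  have hE_lof : ∀ i (a : (A i).V), E (DirectSum.lof k ι (fun i => (A i).V) i a) = (inc i).hom a := by
    intro i a
    change D _ = _
    simp [D]
  -- coordinate projections
  let prlin : ∀ i, C.V →ₗ[k] (A i).V := fun i =>
    DirectSum.component k ι (fun i => (A i).V) i ∘ₗ E.symm.toLinearMap
  have hpr_inc : ∀ i i' (a : (A i').V),
      prlin i ((inc i').hom a) = if h : i' = i then h ▸ a else 0 := by
    intro i i' a
    have : E.symm ((inc i').hom a) = DirectSum.lof k ι (fun i => (A i).V) i' a := by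
      rw [LinearEquiv.symm_apply_eq, hE_lof]
    simp only [prlin, LinearMap.comp_apply, LinearEquiv.coe_coe, this]
    rw [DirectSum.component.of]
  have hpr_equiv : ∀ i (g : G) (c : C.V), prlin i (C.ρ g c) = (A i).ρ g (prlin i c) := by
    intro i g c
    obtain ⟨d, rfl⟩ := E.surjective c
    have key : (prlin i ∘ₗ C.ρ g ∘ₗ E.toLinearMap) = ((A i).ρ g ∘ₗ prlin i ∘ₗ E.toLinearMap) := by
      apply DirectSum.linearMap_ext
      intro i'
      apply LinearMap.ext
      intro a
      simp only [LinearMap.comp_apply, LinearEquiv.coe_coe, hE_lof]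
      rw [← Rep.hom_comm_apply, hpr_inc, hpr_inc]
      by_cases h : i' = i
      · subst h; simp
      · simp [h]
    exact congrArg (fun f => f d) key
  let pr : ∀ i, C ⟶ A i := fun i =>
    ConcreteCategory.ofHom (C := Rep.{0} k G)
      ({ toLinearMap := prlin i
         isIntertwining' := fun g => LinearMap.ext fun c => hpr_equiv i g c } :
        C.ρ.IntertwiningMap (A i).ρ)
  have hpr_apply : ∀ i (c : C.V), (pr i).hom c = prlin i c := fun _ _ => rfl
  have hinc_pr_same : ∀ i, inc i ≫ pr i = 𝟙 (A i) := by
    intro i
    apply Rep.hom_ext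
    apply DFunLike.ext
    intro a
    change (pr i).hom ((inc i).hom a) = a
    rw [hpr_apply, hpr_inc]; simp
  have hinc_pr_ne : ∀ i i', i ≠ i' → inc i ≫ pr i' = 0 := by
    intro i i' h
    apply Rep.hom_ext
    apply DFunLike.ext
    intro a
    change (pr i').hom ((inc i).hom a) = 0
    rw [hpr_apply, hpr_inc]; simp [h]
  -- the map on cohomology
  let T : (DirectSum ι fun i => groupCohomology (A i) n) →ₗ[k] groupCohomology C n :=
    DirectSum.toModule k ι (groupCohomology C n) (fun i => (coeffMap (inc i) n).hom)
  have hT_lof : ∀ i (y : groupCohomology (A i) n),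
      T (DirectSum.lof k ι (fun i => groupCohomology (A i) n) i y) = (coeffMap (inc i) n).hom y := by
    intro i y
    simp [T]
  change Function.Bijective T
  constructor
  · -- injectivity: apply the projections
    rw [← LinearMap.ker_eq_bot, LinearMap.ker_eq_bot']
    intro y hy
    have hcomp : ∀ i', ((coeffMap (pr i') n).hom.comp T) =
        DirectSum.component k ι (fun i => groupCohomology (A i) n) i' := by
      intro i'
      apply DirectSum.linearMap_ext
      intro i
      apply LinearMap.ext
      intro w
      simp only [LinearMap.comp_apply, hT_lof]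
      rw [← coeffMap_comp_apply, DirectSum.component.of]
      by_cases h : i = i'
      · subst h
        rw [hinc_pr_same, coeffMap_id]; simp
      · rw [hinc_pr_ne i i' h, coeffMap_zero]; simp [h]
    apply DirectSum.ext_component k
    intro i'
    rw [← hcomp i', LinearMap.comp_apply, hy, map_zero, map_zero]
  · -- surjectivity: a cocycle has finite support
    intro x
    induction x using groupCohomology_induction_on with
    | h z => ?_
    let f : (Fin n → G) → C.V := (iCocycles C n).hom z
    let s : Finset ι := Finset.univ.biUnion fun v : Fin n → G => DFinsupp.support (E.symm (f v))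
    have hs : ∀ v, ∑ i ∈ s, (inc i).hom ((pr i).hom (f v)) = f v := by
      intro v
      have h1 : E.symm (f v) = ∑ i ∈ s, DirectSum.lof k ι (fun i => (A i).V) i (E.symm (f v) i) := by
        have hsub : DFinsupp.support (E.symm (f v)) ⊆ s := by
          intro i hi
          exact Finset.mem_biUnion.2 ⟨v, Finset.mem_univ _, hi⟩
        have h2 := DirectSum.sum_support_of (E.symm (f v))
        have h4 : ∑ i ∈ DFinsupp.support (E.symm (f v)),
            (DirectSum.of (fun i => (A i).V) i) ((E.symm (f v)) i) =
            ∑ i ∈ s, (DirectSum.of (fun i => (A i).V) i) ((E.symm (f v)) i) := by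
          apply Finset.sum_subset hsub
          intro i _ hi
          have : (E.symm (f v)) i = 0 := by
            by_contra h
            exact hi (DFinsupp.mem_support_iff.2 h)
          rw [this, map_zero]
        rw [h4] at h2
        exact h2.symm
      have h3 := congrArg E h1
      rw [LinearEquiv.apply_symm_apply, map_sum] at h3
      rw [h3]
      refine Finset.sum_congr rfl fun i _ => ?_
      rw [hE_lof]
      congr 1
      rw [hpr_apply]
      simp only [prlin, LinearMap.comp_apply, LinearEquiv.coe_coe]
      rw [← h3]
      rfl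
    let φ : C ⟶ C := ∑ i ∈ s, pr i ≫ inc i
    have hφ : ∀ v, φ.hom (f v) = f v := by
      intro v
      have : φ.hom (f v) = ∑ i ∈ s, (inc i).hom ((pr i).hom (f v)) := by
        simp only [φ]
        rw [Rep.sum_hom, Representation.IntertwiningMap.sum_apply]
        rfl
      rw [this, hs v]
    have hx := coeffMap_π_eq_of_fix φ n z hφ
    refine ⟨∑ i ∈ s, DirectSum.lof k ι (fun i => groupCohomology (A i) n) i
      ((coeffMap (pr i) n).hom ((groupCohomology.π C n).hom z)), ?_⟩
    rw [map_sum]
    simp only [hT_lof]
    have hx' : (groupCohomology.π C n).hom z = ∑ i ∈ s, (coeffMap (inc i) n).hom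
        ((coeffMap (pr i) n).hom ((groupCohomology.π C n).hom z)) := by
      conv_lhs => rw [← hx]
      simp only [φ]
      rw [coeffMap_sum_apply]
      exact Finset.sum_congr rfl fun i _ => coeffMap_comp_apply _ _ _ _
    exact hx'.symm

end Fermat.Agent.S55.T.H415
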